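import Mathlib
import Fermat.Prelude.Def_FormalHecke_Eigensystem

set_option autoImplicit false

namespace Fermat.Agent.S49

open FormalHecke

variable {R : Type*} [CommRing R]

/-- A formal Hecke eigensystem is recursive (multiplicative with the prime-power recursion). -/
theorem isRecursive_of_isEigensystem {e a : ℕ → R} (h : IsEigensystem e a) :
    IsRecursive e a := by
  obtain ⟨h1, hrec⟩ := h
  refine ⟨h1, ?_, ?_⟩
  · intro m
    induction m using Nat.strong_induction_on with
    | _ m ih =>
      intro n hmn
      rcases Nat.eq_zero_or_pos m with rfl | hmpos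
      · have hn : n = 1 := by simpa using hmn
        subst hn
        simp [h1]
      · by_cases hm1 : m = 1
        · subst hm1
          simp [h1]
        · obtain ⟨ℓ, hℓ, hℓm⟩ := Nat.exists_prime_and_dvd hm1
          obtain ⟨m', rfl⟩ := hℓm
          have hm'pos : 0 < m' := Nat.pos_of_mul_pos_left hmpos
          have hm'lt : m' < ℓ * m' := by
            have := hℓ.two_le
            nlinarith
          have hcop' : m'.Coprime n := Nat.Coprime.coprime_mul_left hmn
          have hcopℓ : ℓ.Coprime n := Nat.Coprime.coprime_mul_right hmn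
          have hℓn : ¬ ℓ ∣ n := fun hd => by
            have := Nat.Coprime.eq_one_of_dvd hcopℓ hd
            exact hℓ.one_lt.ne' this
          have key := hrec ℓ hℓ (m' * n)
          have key2 := hrec ℓ hℓ m'
          have e1 : a (m' * n) = a m' * a n := ih m' hm'lt n hcop'
          by_cases hℓm' : ℓ ∣ m'
          · obtain ⟨m'', rfl⟩ := hℓm'
            have hm''pos : 0 < m'' := Nat.pos_of_mul_pos_left hm'pos
            have hm''lt : m'' < ℓ * (ℓ * m'') := by
              have := hℓ.two_le
              nlinarith
            have hcop'' : m''.Coprime n := Nat.Coprime.coprime_mul_left hcop'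
            have e2 : a (m'' * n) = a m'' * a n := ih m'' hm''lt n hcop''
            have hd1 : ℓ ∣ ℓ * m'' * n := Dvd.dvd.mul_right (Dvd.intro _ rfl) n
            have hq1 : ℓ * m'' * n / ℓ = m'' * n := by
              rw [mul_assoc]; exact Nat.mul_div_cancel_left _ hℓ.pos
            have hq2 : ℓ * m'' / ℓ = m'' := Nat.mul_div_cancel_left _ hℓ.pos
            rw [if_pos hd1, hq1, e1, e2] at key
            rw [if_pos (Dvd.intro _ rfl), hq2] at key2
            have : a (ℓ * (ℓ * m'') * n) = a (ℓ * (ℓ * m'' * n)) := by ring_nf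
            rw [this]
            linear_combination key - a n * key2
          · have hnd : ¬ ℓ ∣ m' * n := fun hd =>
              (hℓ.dvd_mul.mp hd).elim hℓm' hℓn
            rw [if_neg hnd, e1] at key
            rw [if_neg hℓm'] at key2
            have : a (ℓ * m' * n) = a (ℓ * (m' * n)) := by rw [mul_assoc]
            rw [this]
            linear_combination key - a n * key2
  · intro ℓ r hℓ
    have key := hrec ℓ hℓ (ℓ ^ (r + 1))
    have hd : ℓ ∣ ℓ ^ (r + 1) := Dvd.intro_left (ℓ ^ r) (by rw [pow_succ])
    have hq : ℓ ^ (r + 1) / ℓ = ℓ ^ r := by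
      rw [pow_succ]; exact Nat.mul_div_cancel _ hℓ.pos
    rw [if_pos hd, hq] at key
    have : ℓ ^ (r + 2) = ℓ * ℓ ^ (r + 1) := by ring
    rw [this]
    linear_combination key

/-- If a sequence satisfies the Hecke eigen-relations (with arbitrary eigenvalues) and its
first coefficient vanishes, then all positive-index coefficients vanish. -/
theorem eq_zero_of_eigen_of_one_eq_zero {e a : ℕ → R}
    (hrec : ∀ ℓ : ℕ, ℓ.Prime → ∃ μ : R, ∀ n : ℕ,
      a (ℓ * n) + e ℓ * (if ℓ ∣ n then a (n / ℓ) else 0) = μ * a n)
    (h1 : a 1 = 0) : ∀ n : ℕ, 0 < n → a n = 0 := by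
  intro n
  induction n using Nat.strong_induction_on with
  | _ n ih =>
    intro hn
    by_cases hn1 : n = 1
    · subst hn1; exact h1
    · obtain ⟨ℓ, hℓ, hℓn⟩ := Nat.exists_prime_and_dvd hn1
      obtain ⟨m, rfl⟩ := hℓn
      have hmpos : 0 < m := Nat.pos_of_mul_pos_left hn
      have hmlt : m < ℓ * m := by
        have := hℓ.two_le
        nlinarith
      obtain ⟨μ, hμ⟩ := hrec ℓ hℓ
      have key := hμ m
      have hm0 : a m = 0 := ih m hmlt hmpos
      by_cases hd : ℓ ∣ m
      · have hlt : m / ℓ < ℓ * m := lt_of_le_of_lt (Nat.div_le_self _ _) hmlt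
        have hpos : 0 < m / ℓ := Nat.div_pos (Nat.le_of_dvd hmpos hd) hℓ.pos
        have hq0 : a (m / ℓ) = 0 := ih (m / ℓ) hlt hpos
        rw [if_pos hd, hq0, hm0] at key
        simpa using key
      · rw [if_neg hd, hm0] at key
        simpa using key

end Fermat.Agent.S49
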