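import Fermat.Agent.S49.DS.Coeff

set_option autoImplicit false

open CongruenceSubgroup ModularFormClass Polynomial

namespace Fermat.Agent.S49

/-- An eigenvalue of an integral endomorphism is an algebraic integer. -/
theorem isIntegral_eigenvalue {V : Type*} [AddCommGroup V] [Module ℂ V]
    {t : Module.End ℂ V} (ht : IsIntegral ℤ t) {f : V} (hf : f ≠ 0) {μ : ℂ}
    (h : t f = μ • f) : IsIntegral ℤ μ := by
  obtain ⟨P, hmonic, hP⟩ := ht
  refine ⟨P, hmonic, ?_⟩
  have hev : t.HasEigenvector μ f := ⟨Module.End.mem_eigenspace_iff.mpr h, hf⟩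
  have h1 := Module.End.aeval_apply_of_hasEigenvector (p := P.map (algebraMap ℤ ℂ)) hev
  rw [Polynomial.aeval_map_algebraMap, Polynomial.eval_map, Polynomial.aeval_def, hP,
    LinearMap.zero_apply] at h1
  have h2 := h1.symm
  rw [smul_eq_zero] at h2
  exact h2.resolve_right hf

variable {N : ℕ}

theorem qIntegralSet_subset_intLattice (N : ℕ) :
    CuspForm.qIntegralSet N ⊆ (CuspForm.intLattice N 2 : Set (CuspForm (Gamma0 N) 2)) := by
  intro f hf
  refine Submodule.subset_span fun n => ?_
  obtain ⟨m, hm⟩ := Subring.mem_bot.mp (hf n)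
  exact ⟨m, hm.symm⟩

theorem finite_of_hasIntegralBasis [NeZero N] (h : CuspForm.HasIntegralBasis N) :
    Module.Finite ℂ (CuspForm (Gamma0 N) 2) := by
  obtain ⟨F, hF⟩ := CuspForm.intLattice_fg N 2
  refine ⟨⟨F, ?_⟩⟩
  rw [eq_top_iff, ← h]
  apply Submodule.span_le.mpr
  intro f hf
  have hfL : f ∈ CuspForm.intLattice N 2 := qIntegralSet_subset_intLattice N hf
  rw [← hF] at hfL
  exact Submodule.span_le_restrictScalars ℤ ℂ _ hfL

/-- Elements of the Hecke algebra are integral over `ℤ`. -/
theorem isIntegral_of_mem_heckeAlgebra [NeZero N] (h : CuspForm.HasIntegralBasis N)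
    {t : Module.End ℂ (CuspForm (Gamma0 N) 2)} (ht : t ∈ CuspForm.heckeAlgebra N 2 ∅) :
    IsIntegral ℤ t := by
  classical
  have hfin : Module.Finite ℤ (CuspForm.intLattice N 2) :=
    Module.Finite.iff_fg.mpr (CuspForm.intLattice_fg N 2)
  have hstable : ∀ v ∈ CuspForm.intLattice N 2, (t.restrictScalars ℤ) v ∈ CuspForm.intLattice N 2 :=
    fun v hv => CuspForm.mem_intLattice_of_mem_heckeAlgebra (by norm_num) ht hv
  let tL : Module.End ℤ (CuspForm.intLattice N 2) := (t.restrictScalars ℤ).restrict hstable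
  obtain ⟨P, hmonic, hP⟩ := (Module.End.isIntegral (R := ℤ)).isIntegral tL
  refine ⟨P, hmonic, ?_⟩
  have hpow : ∀ (i : ℕ) (v : CuspForm.intLattice N 2),
      (t ^ i) (v : CuspForm (Gamma0 N) 2) = ((tL ^ i) v : CuspForm (Gamma0 N) 2) := by
    intro i
    induction i with
    | zero => intro v; simp
    | succ i ih =>
      intro v
      rw [pow_succ, pow_succ, Module.End.mul_apply, Module.End.mul_apply, ← ih]
      rfl
  have key : ∀ v : CuspForm.intLattice N 2,
      (Polynomial.aeval t P) (v : CuspForm (Gamma0 N) 2) =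
        ((Polynomial.aeval tL P) v : CuspForm (Gamma0 N) 2) := by
    intro v
    rw [Polynomial.aeval_eq_sum_range, Polynomial.aeval_eq_sum_range, LinearMap.sum_apply,
      LinearMap.sum_apply, Submodule.coe_sum]
    refine Finset.sum_congr rfl fun i _ => ?_
    rw [LinearMap.smul_apply, LinearMap.smul_apply, Submodule.coe_smul, hpow]
  rw [← Polynomial.aeval_def]
  rw [← Polynomial.aeval_def] at hP
  apply LinearMap.ext_on h
  intro v hv
  have hvL : v ∈ CuspForm.intLattice N 2 := qIntegralSet_subset_intLattice N hv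
  have := key ⟨v, hvL⟩
  rw [hP] at this
  simpa using this

end Fermat.Agent.S49
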