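import Mathlib

set_option autoImplicit false

namespace Fermat.Agent.S49

/-- Let `B` be a finite-dimensional commutative `ℂ`-algebra acting on a finite-dimensional
`ℂ`-vector space `V`, and let `S` be a multiplicative subset of `B` no element of which kills
all of `V`. Then there is a character `χ : B → ℂ` not vanishing on `S` together with a nonzero
simultaneous eigenvector for `B` with eigen-character `χ`. -/
theorem exists_assoc_character {B V : Type*} [CommRing B] [Algebra ℂ B] [Module.Finite ℂ B]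
    [AddCommGroup V] [Module ℂ V] [Module B V] [IsScalarTower ℂ B V] [Module.Finite ℂ V]
    (S : Submonoid B) (hS : ∀ u ∈ S, ∃ v : V, u • v ≠ 0) :
    ∃ (χ : B →ₐ[ℂ] ℂ) (f : V), f ≠ 0 ∧ (∀ b : B, b • f = χ b • f) ∧ ∀ u ∈ S, χ u ≠ 0 := by
  classical
  have : IsNoetherianRing B := IsNoetherianRing.of_finite ℂ B
  have : Module.Finite B V := Module.Finite.of_restrictScalars_finite ℂ B V
  have hdisj : Disjoint ((Module.annihilator B V : Ideal B) : Set B) (S : Set B) := by
    rw [Set.disjoint_left]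
    intro u hu huS
    obtain ⟨v, hv⟩ := hS u huS
    exact hv (Module.mem_annihilator.mp hu v)
  obtain ⟨P, hPprime, hPle, hPdisj⟩ :=
    Ideal.exists_le_prime_disjoint (Module.annihilator B V) S hdisj
  obtain ⟨P', hP'min, hP'le⟩ := Ideal.exists_minimalPrimes_le hPle
  have hass : IsAssociatedPrime P' V :=
    Module.associatedPrimes.minimalPrimes_annihilator_subset_associatedPrimes B V hP'min
  obtain ⟨hP'prime, x, hx⟩ := isAssociatedPrime_iff.mp hass
  have hxne : x ≠ 0 := by
    rintro rfl
    apply hP'prime.ne_top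
    rw [hx, Ideal.eq_top_iff_one, Submodule.mem_colon_singleton]
    simp
  have : P'.IsPrime := hP'prime
  have : Module.Finite ℂ (B ⧸ P') := Module.Finite.quotient ℂ P'
  have : Algebra.IsIntegral ℂ (B ⧸ P') := Algebra.IsIntegral.of_finite ℂ (B ⧸ P')
  have hbij : Function.Bijective (algebraMap ℂ (B ⧸ P')) :=
    IsAlgClosed.algebraMap_bijective_of_isIntegral
  let ε : ℂ ≃ₐ[ℂ] (B ⧸ P') := AlgEquiv.ofBijective (Algebra.ofId ℂ (B ⧸ P')) hbij
  let χ : B →ₐ[ℂ] ℂ := (ε.symm : (B ⧸ P') →ₐ[ℂ] ℂ).comp (Ideal.Quotient.mkₐ ℂ P')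
  have hχ : ∀ b : B, b - algebraMap ℂ B (χ b) ∈ P' := by
    intro b
    rw [← Ideal.Quotient.eq]
    have h1 : ε (χ b) = Ideal.Quotient.mk P' b := by
      show ε (ε.symm (Ideal.Quotient.mk P' b)) = _
      exact ε.apply_symm_apply _
    have h2 : ε (χ b) = Ideal.Quotient.mk P' (algebraMap ℂ B (χ b)) := rfl
    rw [← h1, h2]
  refine ⟨χ, x, hxne, ?_, ?_⟩
  · intro b
    have hb := hχ b
    rw [hx, Submodule.mem_colon_singleton, Submodule.mem_bot, sub_smul, sub_eq_zero,
      algebraMap_smul] at hb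
    exact hb
  · intro u hu h0
    have hmem : u ∈ P' := by
      have := hχ u
      rwa [h0, map_zero, sub_zero] at this
    exact Set.disjoint_left.mp hPdisj (hP'le hmem) hu

end Fermat.Agent.S49
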