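import Mathlib
import Fermat.Agent.S49.DS.Character

set_option autoImplicit false

namespace Fermat.Agent.S49

/-- `1/3` is not an algebraic integer. -/
theorem not_one_eq_three_mul_integral :
    ¬ ∃ z : integralClosure ℤ ℂ, (1 : ℂ) = 3 * (z : ℂ) := by
  rintro ⟨z, hz⟩
  have hz' : IsIntegral ℤ (z : ℂ) := z.2
  have h3 : (z : ℂ) = algebraMap ℚ ℂ (1 / 3) := by
    have : (z : ℂ) = 1 / 3 := by
      field_simp
      linear_combination -hz
    rw [this]
    simp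
  rw [h3, isIntegral_algebraMap_iff (algebraMap ℚ ℂ).injective] at hz'
  obtain ⟨y, hy⟩ := IsIntegrallyClosed.isIntegral_iff.mp hz'
  have h1 : (3 : ℚ) * (y : ℚ) = 1 := by
    have : ((algebraMap ℤ ℚ) y : ℚ) = (y : ℚ) := rfl
    rw [this] at hy
    rw [hy]
    norm_num
  have h2 : (3 : ℤ) * y = 1 := by exact_mod_cast h1
  omega

open scoped IsMulCommutative in
/-- Abstract Deligne–Serre lifting lemma. -/
theorem lifting {V : Type*} [AddCommGroup V] [Module ℂ V] [Module.Finite ℂ V]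
    (T : Set (Module.End ℂ V)) (hcomm : ∀ a ∈ T, ∀ b ∈ T, a * b = b * a)
    (𝔪 : Set (Module.End ℂ V)) (h𝔪T : 𝔪 ⊆ T) (h𝔪mul : ∀ a ∈ 𝔪, ∀ b ∈ 𝔪, a * b ∈ 𝔪)
    (φ : V →ₗ[ℂ] ℂ) (f₀ : V)
    (hφ𝔪 : ∀ s ∈ 𝔪, ∃ z : integralClosure ℤ ℂ, φ (s f₀) = 3 * (z : ℂ))
    (hφf₀ : ∃ z : integralClosure ℤ ℂ, φ f₀ = 1 + 3 * (z : ℂ)) :
    ∃ f : V, f ≠ 0 ∧ (∀ t ∈ T, ∃ μ : ℂ, t f = μ • f) ∧
      ∃ 𝔪' : Ideal (integralClosure ℤ ℂ), 𝔪'.IsMaximal ∧
        ∀ s ∈ 𝔪, ∀ c : integralClosure ℤ ℂ, s f = (c : ℂ) • f → c ∈ 𝔪' := by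
  classical
  -- the additive subgroup generated by algebraic-integer multiples of elements of `𝔪`
  let 𝔫 : AddSubgroup (Module.End ℂ V) :=
    AddSubgroup.closure {x | ∃ z : integralClosure ℤ ℂ, ∃ s ∈ 𝔪, x = (z : ℂ) • s}
  have h𝔫gen : ∀ (z : integralClosure ℤ ℂ), ∀ s ∈ 𝔪, (z : ℂ) • s ∈ 𝔫 := fun z s hs =>
    AddSubgroup.subset_closure ⟨z, s, hs, rfl⟩
  have h𝔫mul : ∀ x ∈ 𝔫, ∀ y ∈ 𝔫, x * y ∈ 𝔫 := by
    intro x hx
    induction hx using AddSubgroup.closure_induction with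
    | mem x hx =>
      obtain ⟨z, s, hs, rfl⟩ := hx
      intro y hy
      induction hy using AddSubgroup.closure_induction with
      | mem y hy =>
        obtain ⟨z', s', hs', rfl⟩ := hy
        have : ((z : ℂ) • s) * ((z' : ℂ) • s') = ((z * z' : integralClosure ℤ ℂ) : ℂ) • (s * s') := by
          rw [smul_mul_smul_comm]
          simp
        rw [this]
        exact h𝔫gen _ _ (h𝔪mul s hs s' hs')
      | zero => simp
      | add y y' _ _ hy hy' => rw [mul_add]; exact add_mem hy hy'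
      | neg y _ hy => rw [mul_neg]; exact neg_mem hy
    | zero => intro y _; simp
    | add x x' _ _ hx hx' => intro y hy; rw [add_mul]; exact add_mem (hx y hy) (hx' y hy)
    | neg x _ hx => intro y hy; rw [neg_mul]; exact neg_mem (hx y hy)
  have h𝔫smul : ∀ (z : integralClosure ℤ ℂ), ∀ x ∈ 𝔫, (z : ℂ) • x ∈ 𝔫 := by
    intro z x hx
    induction hx using AddSubgroup.closure_induction with
    | mem x hx =>
      obtain ⟨z', s, hs, rfl⟩ := hx
      have : (z : ℂ) • ((z' : ℂ) • s) = ((z * z' : integralClosure ℤ ℂ) : ℂ) • s := by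
        rw [smul_smul]; simp
      rw [this]
      exact h𝔫gen _ _ hs
    | zero => simp
    | add x x' _ _ hx hx' => rw [smul_add]; exact add_mem hx hx'
    | neg x _ hx => rw [smul_neg]; exact neg_mem hx
  have h𝔫φ : ∀ x ∈ 𝔫, ∃ z : integralClosure ℤ ℂ, φ (x f₀) = 3 * (z : ℂ) := by
    intro x hx
    induction hx using AddSubgroup.closure_induction with
    | mem x hx =>
      obtain ⟨z, s, hs, rfl⟩ := hx
      obtain ⟨w, hw⟩ := hφ𝔪 s hs
      refine ⟨z * w, ?_⟩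
      rw [LinearMap.smul_apply, map_smul, hw, smul_eq_mul]
      push_cast
      ring
    | zero => exact ⟨0, by simp⟩
    | add x x' _ _ hx hx' =>
      obtain ⟨w, hw⟩ := hx
      obtain ⟨w', hw'⟩ := hx'
      refine ⟨w + w', ?_⟩
      rw [LinearMap.add_apply, map_add, hw, hw']
      push_cast
      ring
    | neg x _ hx =>
      obtain ⟨w, hw⟩ := hx
      refine ⟨-w, ?_⟩
      rw [LinearMap.neg_apply, map_neg, hw]
      push_cast
      ring
  -- the commutative algebra generated by `T`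
  let B := Algebra.adjoin ℂ T
  have hBcomm : IsMulCommutative B := Algebra.isMulCommutative_adjoin ℂ hcomm
  have hTB : ∀ t ∈ T, t ∈ B := fun t ht => Algebra.subset_adjoin ht
  have h𝔫B : ∀ x ∈ 𝔫, x ∈ B := by
    intro x hx
    induction hx using AddSubgroup.closure_induction with
    | mem x hx =>
      obtain ⟨z, s, hs, rfl⟩ := hx
      exact Subalgebra.smul_mem B (hTB s (h𝔪T hs)) _
    | zero => exact zero_mem B
    | add x x' _ _ hx hx' => exact add_mem hx hx'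
    | neg x _ hx => exact neg_mem hx
  let S : Submonoid B :=
    { carrier := {u | 1 - (u : Module.End ℂ V) ∈ 𝔫}
      one_mem' := by
        show 1 - ((1 : B) : Module.End ℂ V) ∈ 𝔫
        simp
      mul_mem' := by
        intro u u' hu hu'
        show 1 - ((u * u' : B) : Module.End ℂ V) ∈ 𝔫
        have h1 : 1 - ((u * u' : B) : Module.End ℂ V) =
            (1 - (u : Module.End ℂ V)) + (1 - (u' : Module.End ℂ V))
              - (1 - (u : Module.End ℂ V)) * (1 - (u' : Module.End ℂ V)) := by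
          push_cast
          noncomm_ring
        rw [h1]
        exact sub_mem (add_mem hu hu') (h𝔫mul _ hu _ hu') }
  have hS : ∀ u ∈ S, ∃ v : V, u • v ≠ 0 := by
    intro u hu
    refine ⟨f₀, fun h0 => ?_⟩
    have hu' : 1 - (u : Module.End ℂ V) ∈ 𝔫 := hu
    obtain ⟨w, hw⟩ := h𝔫φ _ hu'
    have h0' : (u : Module.End ℂ V) f₀ = 0 := h0
    rw [LinearMap.sub_apply, Module.End.one_apply, h0', sub_zero] at hw
    obtain ⟨w', hw'⟩ := hφf₀
    apply not_one_eq_three_mul_integral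
    refine ⟨w - w', ?_⟩
    push_cast
    linear_combination hw - hw'
  obtain ⟨χ, f, hf, hχf, hχS⟩ := exists_assoc_character S hS
  have hχf' : ∀ (t : Module.End ℂ V) (ht : t ∈ B), t f = χ ⟨t, ht⟩ • f := fun t ht =>
    hχf ⟨t, ht⟩
  refine ⟨f, hf, fun t ht => ⟨χ ⟨t, hTB t ht⟩, hχf' t _⟩, ?_⟩
  -- the ideal of congruences
  let I : Ideal (integralClosure ℤ ℂ) :=
    Ideal.span {c | ∃ s ∈ 𝔪, s f = (c : ℂ) • f}
  have hI : ∀ c ∈ I, ∃ (n : Module.End ℂ V) (hn : n ∈ B), n ∈ 𝔫 ∧ χ ⟨n, hn⟩ = (c : ℂ) := by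
    intro c hc
    induction hc using Submodule.span_induction with
    | mem c hc =>
      obtain ⟨s, hs, hsf⟩ := hc
      have hsB : s ∈ B := hTB s (h𝔪T hs)
      refine ⟨s, hsB, ?_, ?_⟩
      · have := h𝔫gen 1 s hs
        simpa using this
      · have h1 := hχf' s hsB
        rw [hsf] at h1
        exact (smul_left_injective ℂ hf h1).symm
    | zero => exact ⟨0, zero_mem B, zero_mem 𝔫, by simp [show (⟨0, zero_mem B⟩ : B) = 0 from rfl]⟩
    | add c c' _ _ hc hc' =>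
      obtain ⟨n, hn, hn𝔫, hnχ⟩ := hc
      obtain ⟨n', hn', hn'𝔫, hn'χ⟩ := hc'
      refine ⟨n + n', add_mem hn hn', add_mem hn𝔫 hn'𝔫, ?_⟩
      have : (⟨n + n', add_mem hn hn'⟩ : B) = ⟨n, hn⟩ + ⟨n', hn'⟩ := rfl
      rw [this, map_add, hnχ, hn'χ]
      push_cast
      rfl
    | smul z c _ hc =>
      obtain ⟨n, hn, hn𝔫, hnχ⟩ := hc
      refine ⟨(z : ℂ) • n, Subalgebra.smul_mem B hn _, h𝔫smul z n hn𝔫, ?_⟩
      have : (⟨(z : ℂ) • n, Subalgebra.smul_mem B hn _⟩ : B) = (z : ℂ) • ⟨n, hn⟩ := rfl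
      rw [this, map_smul, hnχ, smul_eq_mul]
      simp
  have hItop : I ≠ ⊤ := by
    intro htop
    have h1 : (1 : integralClosure ℤ ℂ) ∈ I := by rw [htop]; trivial
    obtain ⟨n, hn, hn𝔫, hnχ⟩ := hI 1 h1
    have huS : (1 - ⟨n, hn⟩ : B) ∈ S := by
      show 1 - ((1 - ⟨n, hn⟩ : B) : Module.End ℂ V) ∈ 𝔫
      push_cast
      simpa using hn𝔫
    apply hχS _ huS
    rw [map_sub, map_one, hnχ]
    simp
  obtain ⟨𝔪', h𝔪'max, hI𝔪'⟩ := Ideal.exists_le_maximal I hItop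
  exact ⟨𝔪', h𝔪'max, fun s hs c hsc => hI𝔪' (Ideal.subset_span ⟨s, hs, hsc⟩)⟩

end Fermat.Agent.S49
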