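import Fermat.Agent.S49.DS.Congr

set_option autoImplicit false

open CongruenceSubgroup ModularFormClass EisensteinWeightOne

namespace Fermat.Agent.S49

variable {N : ℕ} [NeZero N]

omit [NeZero N] in
theorem exists_three_smul_heckeT {a : ℕ → ℤ}
    (heig : FormalHecke.IsEigensystem
      (fun ℓ => if ℓ ∣ N then 0 else ((chiNegThree ℓ : ℤ) : ℤ)) a)
    {f₀ : CuspForm (Gamma0 N) 2} {af : ℕ → ℤ} (haf : ∀ n, (af n : ℂ) = qCoeff f₀ n)
    (hcong : ∀ n, (3 : ℤ) ∣ af n - a n)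
    {ℓ : ℕ} (hℓ : ℓ.Prime) (hℓN : ¬ ℓ ∣ N) :
    ∃ g ∈ CuspForm.intLattice N 2,
      (CuspForm.heckeTLin 2 hℓ hℓN -
        (a ℓ : ℂ) • (1 : Module.End ℂ (CuspForm (Gamma0 N) 2))) f₀ = (3 : ℂ) • g := by
  refine ⟨(3 : ℂ)⁻¹ • (CuspForm.heckeTLin 2 hℓ hℓN f₀ - (a ℓ : ℂ) • f₀), ?_, ?_⟩
  · rw [mem_intLattice_iff]
    intro n
    rw [qCoeff_smul, qCoeff_sub, qCoeff_smul, qCoeff_heckeTLin]
    simp only [← haf]
    choose d hd using hcong
    obtain ⟨c, hc⟩ := three_dvd_sub_chiNegThree ℓ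
    have key := heig.2 ℓ hℓ n
    simp only [if_neg hℓN] at key
    have hpow : ((ℓ : ℂ)) ^ ((2 : ℤ) - 1) = (ℓ : ℂ) := by norm_num
    by_cases hdvd : ℓ ∣ n
    · rw [if_pos hdvd] at key
      rw [if_pos hdvd, hpow]
      refine ⟨d (n * ℓ) + chiNegThree ℓ * d (n / ℓ) + c * a (n / ℓ) + 3 * c * d (n / ℓ)
        - a ℓ * d n, ?_⟩
      have hK : af (n * ℓ) + (ℓ : ℤ) * af (n / ℓ) - a ℓ * af n =
          3 * (d (n * ℓ) + chiNegThree ℓ * d (n / ℓ) + c * a (n / ℓ) + 3 * c * d (n / ℓ)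
            - a ℓ * d n) := by
        have E1 := hd (n * ℓ)
        have E2 := hd (n / ℓ)
        have E3 := hd n
        rw [mul_comm ℓ n] at key
        linear_combination E1 + key - a ℓ * E3 + (ℓ : ℤ) * E2 + (a (n / ℓ) + 3 * d (n / ℓ)) * hc
      have hKc := congrArg (Int.cast : ℤ → ℂ) hK
      push_cast at hKc
      rw [inv_mul_eq_iff_eq_mul₀ (by norm_num : (3 : ℂ) ≠ 0)]
      push_cast
      linear_combination hKc
    · rw [if_neg hdvd] at key
      rw [if_neg hdvd]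
      refine ⟨d (n * ℓ) - a ℓ * d n, ?_⟩
      have hK : af (n * ℓ) - a ℓ * af n = 3 * (d (n * ℓ) - a ℓ * d n) := by
        have E1 := hd (n * ℓ)
        have E3 := hd n
        rw [mul_comm ℓ n] at key
        linear_combination E1 + key - a ℓ * E3
      have hKc := congrArg (Int.cast : ℤ → ℂ) hK
      push_cast at hKc
      rw [inv_mul_eq_iff_eq_mul₀ (by norm_num : (3 : ℂ) ≠ 0)]
      push_cast
      linear_combination hKc
  · rw [LinearMap.sub_apply, LinearMap.smul_apply, Module.End.one_apply, smul_smul,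
      mul_inv_cancel₀ (by norm_num : (3 : ℂ) ≠ 0), one_smul]

theorem exists_three_smul_heckeU {a : ℕ → ℤ}
    (heig : FormalHecke.IsEigensystem
      (fun ℓ => if ℓ ∣ N then 0 else ((chiNegThree ℓ : ℤ) : ℤ)) a)
    {f₀ : CuspForm (Gamma0 N) 2} {af : ℕ → ℤ} (haf : ∀ n, (af n : ℂ) = qCoeff f₀ n)
    (hcong : ∀ n, (3 : ℤ) ∣ af n - a n)
    {q : ℕ} (hq : q.Prime) (hqN : q ∣ N) :
    ∃ g ∈ CuspForm.intLattice N 2,
      (CuspForm.heckeULin 2 hqN -
        (a q : ℂ) • (1 : Module.End ℂ (CuspForm (Gamma0 N) 2))) f₀ = (3 : ℂ) • g := by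
  refine ⟨(3 : ℂ)⁻¹ • (CuspForm.heckeULin 2 hqN f₀ - (a q : ℂ) • f₀), ?_, ?_⟩
  · rw [mem_intLattice_iff]
    intro n
    rw [qCoeff_smul, qCoeff_sub, qCoeff_smul, qCoeff_heckeULin hq]
    simp only [← haf]
    choose d hd using hcong
    have key := heig.2 q hq n
    simp only [if_pos hqN, zero_mul, add_zero] at key
    refine ⟨d (n * q) - a q * d n, ?_⟩
    have hK : af (n * q) - a q * af n = 3 * (d (n * q) - a q * d n) := by
      have E1 := hd (n * q)
      have E3 := hd n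
      rw [mul_comm q n] at key
      linear_combination E1 + key - a q * E3
    have hKc := congrArg (Int.cast : ℤ → ℂ) hK
    push_cast at hKc
    rw [inv_mul_eq_iff_eq_mul₀ (by norm_num : (3 : ℂ) ≠ 0)]
    push_cast
    linear_combination hKc
  · rw [LinearMap.sub_apply, LinearMap.smul_apply, Module.End.one_apply, smul_smul,
      mul_inv_cancel₀ (by norm_num : (3 : ℂ) ≠ 0), one_smul]

end Fermat.Agent.S49
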