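import Fermat.Statements.S49
import Fermat.Prelude.Def_CuspForm_HeckeAlgebra
import Fermat.Prelude.Def_CuspForm_IntegralStructure
import Fermat.Prelude.Thm_CuspForm_mem_intLattice_of_mem_heckeAlgebra
import Fermat.Prelude.Thm_CuspForm_intLattice_fg
import Fermat.Prelude.Thm_ModularFormClass_qCoeff_heckeT
import Fermat.Prelude.Thm_ModularFormClass_qCoeff_heckeU
import Fermat.Prelude.Thm_CongruenceSubgroup_one_mem_strictPeriods_Gamma0

set_option autoImplicit false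

open CongruenceSubgroup ModularFormClass

namespace Fermat.Agent.S49

variable {N : ℕ} {k : ℤ}

theorem hΓ (N : ℕ) :
    (1 : ℝ) ∈ (Subgroup.map (Matrix.SpecialLinearGroup.mapGL ℝ) (Gamma0 N)).strictPeriods :=
  CongruenceSubgroup.one_mem_strictPeriods_Gamma0 N

theorem qCoeff_add (f g : CuspForm (Gamma0 N) k) (n : ℕ) :
    qCoeff ⇑(f + g) n = qCoeff ⇑f n + qCoeff ⇑g n := by
  simp only [qCoeff, FunLike.coe_add]
  rw [ModularForm.qExpansion_add one_pos (hΓ N) f g, map_add]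

theorem qCoeff_smul (c : ℂ) (f : CuspForm (Gamma0 N) k) (n : ℕ) :
    qCoeff ⇑(c • f) n = c * qCoeff ⇑f n := by
  have h1 : ⇑(c • f) = c • ⇑f := by
    ext z
    simp
  simp only [qCoeff, h1]
  rw [ModularForm.qExpansion_smul one_pos (hΓ N) c f]
  simp

/-- The `n`-th `q`-coefficient as a linear functional. -/
noncomputable def qCoeffLin (N : ℕ) (k : ℤ) (n : ℕ) : CuspForm (Gamma0 N) k →ₗ[ℂ] ℂ where
  toFun f := qCoeff ⇑f n
  map_add' f g := qCoeff_add f g n
  map_smul' c f := by simpa using qCoeff_smul c f n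

@[simp] theorem qCoeffLin_apply (n : ℕ) (f : CuspForm (Gamma0 N) k) :
    qCoeffLin N k n f = qCoeff ⇑f n := rfl

theorem qCoeff_sub (f g : CuspForm (Gamma0 N) k) (n : ℕ) :
    qCoeff ⇑(f - g) n = qCoeff ⇑f n - qCoeff ⇑g n :=
  map_sub (qCoeffLin N k n) f g

theorem qCoeff_zero_form (n : ℕ) : qCoeff ⇑(0 : CuspForm (Gamma0 N) k) n = 0 :=
  map_zero (qCoeffLin N k n)

theorem qCoeff_zsmul (c : ℤ) (f : CuspForm (Gamma0 N) k) (n : ℕ) :
    qCoeff ⇑(c • f) n = c * qCoeff ⇑f n := by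
  have : c • f = (c : ℂ) • f := by
    rw [Int.cast_smul_eq_zsmul]
  rw [this, qCoeff_smul]

/-- The submodule of forms with integral `q`-coefficients. -/
noncomputable def intSubmodule (N : ℕ) (k : ℤ) : Submodule ℤ (CuspForm (Gamma0 N) k) where
  carrier := {f | ∀ n : ℕ, ∃ m : ℤ, qCoeff f n = (m : ℂ)}
  add_mem' {f g} hf hg n := by
    obtain ⟨a, ha⟩ := hf n
    obtain ⟨b, hb⟩ := hg n
    exact ⟨a + b, by rw [qCoeff_add, ha, hb]; push_cast; ring⟩
  zero_mem' n := ⟨0, by rw [qCoeff_zero_form]; simp⟩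
  smul_mem' c {f} hf n := by
    obtain ⟨a, ha⟩ := hf n
    exact ⟨c * a, by rw [qCoeff_zsmul, ha]; push_cast; ring⟩

theorem intLattice_eq (N : ℕ) (k : ℤ) : CuspForm.intLattice N k = intSubmodule N k :=
  Submodule.span_eq (intSubmodule N k)

theorem mem_intLattice_iff (f : CuspForm (Gamma0 N) k) :
    f ∈ CuspForm.intLattice N k ↔ ∀ n : ℕ, ∃ m : ℤ, qCoeff f n = (m : ℂ) := by
  rw [intLattice_eq]
  rfl

theorem qCoeff_cusp_zero (f : CuspForm (Gamma0 N) k) : qCoeff ⇑f 0 = 0 :=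
  CuspFormClass.qExpansion_coeff_zero f one_pos (hΓ N)

theorem qCoeff_heckeTLin {p : ℕ} (hp : p.Prime) (hpN : ¬ p ∣ N) (f : CuspForm (Gamma0 N) k)
    (n : ℕ) :
    qCoeff ⇑(CuspForm.heckeTLin k hp hpN f) n =
      qCoeff ⇑f (n * p) + if p ∣ n then (p : ℂ) ^ (k - 1) * qCoeff ⇑f (n / p) else 0 := by
  rw [CuspForm.coe_heckeTLin_apply, ModularFormClass.qCoeff_heckeT f (hΓ N) hp.ne_zero n]
  rfl

theorem qCoeff_heckeULin [NeZero N] {p : ℕ} (hp : p.Prime) (hpN : p ∣ N)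
    (f : CuspForm (Gamma0 N) k) (n : ℕ) :
    qCoeff ⇑(CuspForm.heckeULin k hpN f) n = qCoeff ⇑f (n * p) := by
  rw [CuspForm.coe_heckeULin_apply, ModularFormClass.qCoeff_heckeU f (hΓ N) hp.ne_zero n]
  rfl

/-- A cusp form all of whose `q`-coefficients vanish is zero. -/
theorem eq_zero_of_qCoeff_eq_zero (f : CuspForm (Gamma0 N) k) (h : ∀ n, qCoeff ⇑f n = 0) :
    f = 0 := by
  have h0 : UpperHalfPlane.qExpansion 1 ⇑f = 0 := by
    ext n
    simpa [qCoeff] using h n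
  have hf : (⇑f : UpperHalfPlane → ℂ) = 0 := by
    have : Fact (IsCusp OnePoint.infty
        (Subgroup.map (Matrix.SpecialLinearGroup.mapGL ℝ) (Gamma0 N))) :=
      ⟨Subgroup.isCusp_of_mem_strictPeriods one_pos (hΓ N)⟩
    exact (UpperHalfPlane.qExpansion_eq_zero_iff one_pos
      (SlashInvariantFormClass.periodic_comp_ofComplex f (hΓ N))
      (CuspFormClass.holo f) (ModularFormClass.bdd_at_infty f)).mp h0
  exact DFunLike.coe_injective (by rw [hf]; rfl)

end Fermat.Agent.S49
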