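import Fermat.Agent.S49.DS.Coeff

set_option autoImplicit false

open CongruenceSubgroup ModularFormClass EisensteinWeightOne

namespace Fermat.Agent.S49

theorem three_dvd_sub_chiNegThree (ℓ : ℕ) : (3 : ℤ) ∣ (ℓ : ℤ) - chiNegThree ℓ := by
  unfold chiNegThree
  split_ifs with h1 h2 <;> omega

theorem coeff_e1Chi3In_int (j : ℕ) :
    (e1Chi3In ℤ).coeff j = if j = 0 then 1 else 6 * sigmaChi j := by
  simp [e1Chi3In, e1Chi3]

theorem three_dvd_bridgeProduct_coeff_sub (a : ℕ → ℤ) (n : ℕ) :
    (3 : ℤ) ∣ (bridgeProduct a).coeff n - a n := by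
  unfold bridgeProduct
  rw [PowerSeries.coeff_mul, Finset.Nat.sum_antidiagonal_eq_sum_range_succ_mk,
    Finset.sum_range_succ]
  simp only [PowerSeries.coeff_mk, coeff_e1Chi3In_int, Nat.sub_self, if_true, mul_one,
    add_sub_cancel_right]
  apply Finset.dvd_sum
  intro i hi
  have hi' : i < n := Finset.mem_range.mp hi
  have hne : n - i ≠ 0 := by omega
  rw [if_neg hne]
  exact Dvd.intro (a i * (2 * sigmaChi (n - i))) (by ring)

end Fermat.Agent.S49
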